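import Mathlib
import Fermat.Agent.Arith.AlmostIntegral
import Fermat.Agent.Arith.ValueGroup
import Fermat.Prelude.Def_ModularCurve_X0ModL
import Fermat.Prelude.Def_FLTPrelim_Ramification

/-!
# Laurent series with coefficients in a valuation ring of algebraic numbers

`serInt A` is the ring of series with coefficients in `A`, `serRed A` its coefficientwise
reduction. Series with coefficients in a number field and bounded denominators are constants
times primitive series.
-/

set_option autoImplicit false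
set_option linter.unusedSectionVars false

noncomputable section

open IsLocalRing ModularCurve
open scoped Classical

namespace Fermat.Agent.RedTorsion

/-- The module structure on Laurent series coming from the algebra structure. -/
abbrev serModule (K : Type*) [Field K] : Module K (LaurentSeries K) := Algebra.toModule

/-- The scalar action on Laurent series coming from the algebra structure. -/
abbrev serSMul (K : Type*) [Field K] : SMul K (LaurentSeries K) := Algebra.toSMul

attribute [local instance 10000] serModule serSMul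

variable {L : Type*} [Field L]

section Basic

variable (A : ValuationSubring L)

/-- Series with coefficients in `A`. -/
def serInt : Subring (LaurentSeries L) := (coeffMap A.subtype).range

variable {A}

theorem mem_serInt {f : LaurentSeries L} : f ∈ serInt A ↔ ∀ k, f.coeff k ∈ A := by
  constructor
  · rintro ⟨y, rfl⟩ k
    rw [coeffMap_coeff]
    exact (y.coeff k).2
  · intro h
    refine ⟨⟨fun k => ⟨f.coeff k, h k⟩, f.isPWO_support.mono ?_⟩, ?_⟩
    · intro k hk
      simp only [Function.mem_support, HahnSeries.mem_support, ne_eq] at hk ⊢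
      exact fun h0 => hk (Subtype.ext h0)
    · ext k; rfl

variable (A)

/-- A series with coefficients in `A`, as a series over `A`. -/
def serLift : serInt A ≃+* LaurentSeries A :=
  (RingEquiv.ofBijective (coeffMap A.subtype).rangeRestrict
    ⟨fun x y h => HahnSeries.ext (funext fun n => Subtype.ext (by
        simpa using congrArg (fun z => z.1.coeff n) h)),
      RingHom.rangeRestrict_surjective _⟩).symm

/-- Coefficientwise reduction. -/
def serRed : serInt A →+* LaurentSeries (ResidueField A) :=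
  (coeffMap (residue A)).comp (serLift A).toRingHom

variable {A}

theorem coe_coeff_serLift (f : serInt A) (n : ℤ) :
    (((serLift A f).coeff n : A) : L) = f.1.coeff n :=
  congrArg (fun z : serInt A => z.1.coeff n) ((serLift A).symm_apply_apply f)

theorem coeff_serRed (f : serInt A) (n : ℤ) :
    (serRed A f).coeff n = residue A ⟨f.1.coeff n, mem_serInt.mp f.2 n⟩ :=
  congrArg (residue A) (Subtype.ext (coe_coeff_serLift f n))

theorem serRed_coeffMap (y : LaurentSeries A) (h : coeffMap A.subtype y ∈ serInt A) :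
    serRed A ⟨coeffMap A.subtype y, h⟩ = coeffMap (residue A) y := by
  ext n
  exact (coeff_serRed _ n).trans
    ((congrArg (residue A) (Subtype.ext (coeffMap_coeff A.subtype y n))).trans
      (coeffMap_coeff (residue A) y n).symm)

theorem coeff_algebraMap_mul {K : Type*} [Field K] (c : K) (f : LaurentSeries K) (n : ℤ) :
    (algebraMap K (LaurentSeries K) c * f).coeff n = c * f.coeff n := by
  rw [algebraMap_laurentSeries_eq_single, HahnSeries.coeff_single_zero_mul]

theorem coeff_smul_series {K : Type*} [Field K] (c : K) (f : LaurentSeries K) (n : ℤ) :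
    (c • f).coeff n = c * f.coeff n := by
  rw [Algebra.smul_def, coeff_algebraMap_mul]

theorem ser_smul_smul (a b : L) (f : LaurentSeries L) : a • b • f = (a * b) • f := by
  simp only [Algebra.smul_def, map_mul, mul_assoc]

theorem ser_one_smul (f : LaurentSeries L) : (1 : L) • f = f := by
  simp only [Algebra.smul_def, map_one, one_mul]

theorem ser_smul_zero (a : L) : a • (0 : LaurentSeries L) = 0 := by
  simp only [Algebra.smul_def, mul_zero]

theorem ser_smul_add (a : L) (f g : LaurentSeries L) : a • (f + g) = a • f + a • g := by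
  simp only [Algebra.smul_def, mul_add]

theorem ser_smul_neg (a : L) (f : LaurentSeries L) : a • (-f) = -(a • f) := by
  simp only [Algebra.smul_def, mul_neg]

theorem ser_smul_mul_smul (a b : L) (f g : LaurentSeries L) :
    (a • f) * (b • g) = (a * b) • (f * g) := by
  simp only [Algebra.smul_def, map_mul]; ring

theorem ser_smul_pow (a : L) (f : LaurentSeries L) (n : ℕ) : (a • f) ^ n = a ^ n • f ^ n := by
  simp only [Algebra.smul_def, mul_pow, map_pow]

theorem algebraMap_mem_serInt {c : L} (hc : c ∈ A) : algebraMap L (LaurentSeries L) c ∈ serInt A := by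
  refine mem_serInt.mpr fun k => ?_
  rw [algebraMap_laurentSeries_eq_single, HahnSeries.coeff_single]
  split
  · exact hc
  · exact zero_mem _

theorem serRed_algebraMap {c : L} (hc : c ∈ A) :
    serRed A ⟨_, algebraMap_mem_serInt hc⟩ =
      algebraMap (ResidueField A) (LaurentSeries (ResidueField A)) (residue A ⟨c, hc⟩) := by
  ext n
  simp only [coeff_serRed, algebraMap_laurentSeries_eq_single, HahnSeries.coeff_single]
  split
  · rfl
  · exact map_zero (residue A)

theorem smul_mem_serInt {c : L} (hc : c ∈ A) {f : LaurentSeries L} (hf : f ∈ serInt A) :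
    c • f ∈ serInt A := by
  rw [Algebra.smul_def]
  exact mul_mem (algebraMap_mem_serInt hc) hf

theorem serRed_smul {c : L} (hc : c ∈ A) (f : serInt A) :
    serRed A ⟨_, smul_mem_serInt hc f.2⟩ = residue A ⟨c, hc⟩ • serRed A f := by
  refine (congrArg (serRed A) (Subtype.ext (Algebra.smul_def c f.1) :
    (⟨_, smul_mem_serInt hc f.2⟩ : serInt A) = ⟨_, algebraMap_mem_serInt hc⟩ * f)).trans ?_
  rw [map_mul, serRed_algebraMap hc, Algebra.smul_def]

theorem valuation_coeff_lt_one_of_serRed_eq_zero {f : serInt A} (h : serRed A f = 0) (n : ℤ) :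
    A.valuation (f.1.coeff n) < 1 := by
  have h1 := congrArg (fun z => z.coeff n) h
  simp only [coeff_serRed, HahnSeries.coeff_zero, residue_eq_zero_iff] at h1
  exact (A.valuation_lt_one_iff ⟨_, mem_serInt.mp f.2 n⟩).mp h1

/-- `f` is a constant times a primitive series. -/
def IsScalable (A : ValuationSubring L) (f : LaurentSeries L) : Prop :=
  ∃ c : L, c ≠ 0 ∧ ∃ g : serInt A, serRed A g ≠ 0 ∧ f = c • (g : LaurentSeries L)

end Basic

section FinCoeff

variable (L) [CharZero L]

/-- Series whose coefficients lie in a number field. -/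
def finCoeff : Subfield (LaurentSeries L) where
  carrier := {f | ∃ E : IntermediateField ℚ L, FiniteDimensional ℚ E ∧
    f ∈ (coeffMap (algebraMap E L)).range}
  mul_mem' := by
    rintro f g ⟨E, hE, x, rfl⟩ ⟨E', hE', y, rfl⟩
    have := hE; have := hE'
    refine ⟨E ⊔ E', inferInstance,
      coeffMap (IntermediateField.inclusion le_sup_left).toRingHom x *
        coeffMap (IntermediateField.inclusion le_sup_right).toRingHom y, ?_⟩
    rw [map_mul, coeffMap_coeffMap, coeffMap_coeffMap]
    rfl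
  add_mem' := by
    rintro f g ⟨E, hE, x, rfl⟩ ⟨E', hE', y, rfl⟩
    have := hE; have := hE'
    refine ⟨E ⊔ E', inferInstance,
      coeffMap (IntermediateField.inclusion le_sup_left).toRingHom x +
        coeffMap (IntermediateField.inclusion le_sup_right).toRingHom y, ?_⟩
    rw [map_add, coeffMap_coeffMap, coeffMap_coeffMap]
    rfl
  one_mem' := ⟨⊥, inferInstance, one_mem _⟩
  zero_mem' := ⟨⊥, inferInstance, zero_mem _⟩
  neg_mem' := by
    rintro f ⟨E, hE, hf⟩
    exact ⟨E, hE, neg_mem hf⟩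
  inv_mem' := by
    rintro f ⟨E, hE, x, rfl⟩
    exact ⟨E, hE, x⁻¹, map_inv₀ _ _⟩

variable {L}

theorem mem_finCoeff {f : LaurentSeries L} :
    f ∈ finCoeff L ↔ ∃ E : IntermediateField ℚ L, FiniteDimensional ℚ E ∧ ∀ k, f.coeff k ∈ E := by
  constructor
  · rintro ⟨E, hE, y, rfl⟩
    exact ⟨E, hE, fun k => by rw [coeffMap_coeff]; exact (y.coeff k).2⟩
  · rintro ⟨E, hE, h⟩
    refine ⟨E, hE, ⟨fun k => ⟨f.coeff k, h k⟩, f.isPWO_support.mono ?_⟩, ?_⟩
    · intro k hk
      simp only [Function.mem_support, HahnSeries.mem_support, ne_eq] at hk ⊢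
      exact fun h0 => hk (Subtype.ext h0)
    · ext k; rfl

theorem algebraMap_mem_finCoeff [Algebra.IsAlgebraic ℚ L] (c : L) :
    algebraMap L (LaurentSeries L) c ∈ finCoeff L := by
  refine mem_finCoeff.mpr ⟨IntermediateField.adjoin ℚ {c},
    IntermediateField.adjoin.finiteDimensional (Algebra.IsAlgebraic.isAlgebraic c).isIntegral,
    fun k => ?_⟩
  rw [algebraMap_laurentSeries_eq_single, HahnSeries.coeff_single]
  split
  · exact IntermediateField.mem_adjoin_simple_self ℚ c
  · exact zero_mem _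

variable {A : ValuationSubring L} {q : ℕ}

variable (A) in
/-- Series with bounded denominators. -/
def serBdd : Subring (LaurentSeries L) where
  carrier := {f | ∃ c ∈ A, c ≠ 0 ∧ c • f ∈ serInt A}
  mul_mem' := by
    rintro f g ⟨c, hc, hc0, hf⟩ ⟨d, hd, hd0, hg⟩
    exact ⟨c * d, mul_mem hc hd, mul_ne_zero hc0 hd0, by
      rw [← ser_smul_mul_smul]; exact mul_mem hf hg⟩
  add_mem' := by
    rintro f g ⟨c, hc, hc0, hf⟩ ⟨d, hd, hd0, hg⟩
    refine ⟨c * d, mul_mem hc hd, mul_ne_zero hc0 hd0, ?_⟩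
    rw [ser_smul_add]
    refine add_mem ?_ ?_
    · rw [mul_comm, ← ser_smul_smul]; exact smul_mem_serInt hd hf
    · rw [← ser_smul_smul]; exact smul_mem_serInt hc hg
  one_mem' := ⟨1, one_mem _, one_ne_zero, by rw [ser_one_smul]; exact one_mem _⟩
  zero_mem' := ⟨1, one_mem _, one_ne_zero, by rw [ser_smul_zero]; exact zero_mem _⟩
  neg_mem' := by
    rintro f ⟨c, hc, hc0, hf⟩
    exact ⟨c, hc, hc0, by rw [ser_smul_neg]; exact neg_mem hf⟩

theorem serInt_le_serBdd {f : LaurentSeries L} (hf : f ∈ serInt A) : f ∈ serBdd A :=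
  ⟨1, one_mem _, one_ne_zero, by rwa [ser_one_smul]⟩

theorem algebraMap_mem_serBdd (c : L) : algebraMap L (LaurentSeries L) c ∈ serBdd A := by
  rcases A.mem_or_inv_mem c with h | h
  · exact serInt_le_serBdd (algebraMap_mem_serInt h)
  · rcases eq_or_ne c 0 with rfl | hc
    · rw [map_zero]; exact zero_mem _
    refine ⟨c⁻¹, h, inv_ne_zero hc, ?_⟩
    rw [Algebra.smul_def, ← map_mul, inv_mul_cancel₀ hc, map_one]
    exact one_mem _

variable [Algebra.IsAlgebraic ℚ L]

/-- A bounded series with coefficients in a number field is scalable. -/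
theorem isScalable_of_bdd (hA : A.LiesOverPrime q) (hq : q.Prime) {f : LaurentSeries L}
    (hf : f ∈ serBdd A) (hfin : f ∈ finCoeff L) (hf0 : f ≠ 0) : IsScalable A f := by
  obtain ⟨c, hcA, hc0, hcf⟩ := hf
  obtain ⟨E, hE, hcoef⟩ := mem_finCoeff.mp hfin
  obtain ⟨e, he, z, hz⟩ := Arith.exists_pow_valuation_eq_zpow hA hq hc0
  set D := (Module.finrank ℚ E).factorial with hD
  have hDpos : 0 < D := Nat.factorial_pos _
  let P : ℤ → Prop := fun w => ∃ k, f.coeff k ≠ 0 ∧ A.valuation (f.coeff k) ^ D = A.valuation (q : L) ^ w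
  have hbdd : ∀ w, P w → -(|z| * D) ≤ w := by
    rintro w ⟨k, hk, hw⟩
    have h1 : A.valuation (c * f.coeff k) ≤ 1 := by
      rw [A.valuation_le_one_iff, ← coeff_smul_series]
      exact mem_serInt.mp hcf k
    have h2 : A.valuation (q : L) ^ (z * D + w * e) ≤ A.valuation (q : L) ^ (0 : ℤ) := by
      rw [zpow_zero, zpow_add₀ ((Valuation.ne_zero_iff _).mpr (Nat.cast_ne_zero.mpr hq.ne_zero)),
        zpow_mul, zpow_mul, ← hz, ← hw, zpow_natCast, zpow_natCast, ← pow_mul, ← pow_mul,
        mul_comm D e, ← mul_pow, ← map_mul]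
      exact pow_le_one' h1 _
    rw [Arith.zpow_le_zpow_iff_prime hA hq] at h2
    have h3 : z ≤ |z| := le_abs_self z
    have h4 : (1 : ℤ) ≤ e := by exact_mod_cast he
    by_contra hlt
    push Not at hlt
    have h5 : 0 ≤ |z| * (D : ℤ) := by positivity
    have h6 : z * (D : ℤ) ≤ |z| * D := by gcongr
    nlinarith
  obtain ⟨k₁, hk₁⟩ : ∃ k, f.coeff k ≠ 0 := by
    by_contra! h
    exact hf0 (HahnSeries.ext (funext h))
  obtain ⟨w₀, ⟨k, hk, hw⟩, hleast⟩ := Int.exists_least_of_bdd ⟨_, hbdd⟩
    (let ⟨w, hw⟩ := Arith.exists_zpow_of_mem hA hq E (hcoef k₁) hk₁; ⟨w, k₁, hk₁, hw⟩)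
  have hint : (f.coeff k)⁻¹ • f ∈ serInt A := by
    refine mem_serInt.mpr fun n => ?_
    rw [coeff_smul_series, ← A.valuation_le_one_iff]
    by_cases hn : f.coeff n = 0
    · simp [hn]
    obtain ⟨w, hwn⟩ := Arith.exists_zpow_of_mem hA hq E (hcoef n) hn
    refine (pow_le_one_iff hDpos.ne').mp ?_
    rw [map_mul, map_inv₀, mul_pow, inv_pow, hw, hwn,
      inv_mul_le_iff₀ (zero_lt_iff.mpr (hw ▸ pow_ne_zero _ ((Valuation.ne_zero_iff _).mpr hk))), mul_one]
    exact (Arith.zpow_le_zpow_iff_prime hA hq).mpr (hleast w ⟨n, hn, hwn⟩)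
  refine ⟨f.coeff k, hk, ⟨_, hint⟩, fun h0 => ?_, ?_⟩
  · have h1 := valuation_coeff_lt_one_of_serRed_eq_zero h0 k
    rw [coeff_smul_series, inv_mul_cancel₀ hk, map_one] at h1
    exact lt_irrefl _ h1
  · rw [ser_smul_smul, mul_inv_cancel₀ hk, ser_one_smul]

/-- If `c * xⁿ` is integral for all `n`, with `c ≠ 0`, then `x` is integral. -/
theorem mem_of_forall_pow (hA : A.LiesOverPrime q) (hq : q.Prime) {c x : L} (hc : c ≠ 0)
    (h : ∀ n : ℕ, c * x ^ n ∈ A) : x ∈ A := by
  by_contra hx
  rw [← A.valuation_le_one_iff, not_le] at hx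
  have hx0 : x ≠ 0 := by rintro rfl; simp at hx
  obtain ⟨e, he, z, hz⟩ := Arith.exists_pow_valuation_eq_zpow hA hq hx0
  obtain ⟨e', he', z', hz'⟩ := Arith.exists_pow_valuation_eq_zpow hA hq hc
  have hz0 : z < 0 := by
    by_contra hneg
    have h1 : A.valuation x ^ e ≤ A.valuation (q : L) ^ (0 : ℤ) := by
      rw [hz]; exact (Arith.zpow_le_zpow_iff_prime hA hq).mpr (not_lt.mp hneg)
    rw [zpow_zero] at h1
    exact absurd ((pow_le_one_iff he.ne').mp h1) (not_le.mpr hx)
  set n : ℕ := z'.natAbs + 1 with hn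
  have h2 : A.valuation (q : L) ^ (z' + z * n * e') ≤ A.valuation (q : L) ^ (0 : ℤ) := by
    rw [zpow_zero, zpow_add₀ ((Valuation.ne_zero_iff _).mpr (Nat.cast_ne_zero.mpr hq.ne_zero)),
      zpow_mul, zpow_mul, ← hz', ← hz, zpow_natCast, zpow_natCast, ← pow_mul, ← pow_mul,
      show A.valuation c ^ e' * A.valuation x ^ (e * (n * e')) =
        A.valuation (c * x ^ (e * n)) ^ e' by
          rw [map_mul, map_pow, mul_pow, ← pow_mul, mul_assoc],
      ]
    exact pow_le_one' ((A.valuation_le_one_iff _).mpr (h _)) _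
  rw [Arith.zpow_le_zpow_iff_prime hA hq] at h2
  have h4 : (1 : ℤ) ≤ e' := by exact_mod_cast he'
  have h5 : z' ≤ z'.natAbs := Int.le_natAbs
  have h6 : (n : ℤ) ≤ n * e' := le_mul_of_one_le_right (by positivity) h4
  have h7 : z * (n : ℤ) * e' ≤ -1 * ((n : ℤ) * e') := by
    rw [mul_assoc]; exact mul_le_mul_of_nonneg_right (by omega) (by positivity)
  have h8 : (n : ℤ) = z'.natAbs + 1 := by rw [hn]; push_cast; ring
  omega

theorem mem_serInt_of_almostIntegral (hA : A.LiesOverPrime q) (hq : q.Prime)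
    {c x : LaurentSeries L} (hc : c ≠ 0) (h : ∀ n : ℕ, c * x ^ n ∈ serInt A) : x ∈ serInt A :=
  mem_serInt.mpr (Arith.coeff_mem_of_almostIntegral (R := A)
    (fun _ _ h0 => mem_of_forall_pow hA hq h0) hc fun n => mem_serInt.mp (h n))

/-- A fraction of integral series satisfying a monic relation over `serInt A` is integral. -/
theorem mem_serInt_of_monic_rel (hA : A.LiesOverPrime q) (hq : q.Prime) {x d : LaurentSeries L}
    (hd : d ∈ serInt A) (hd0 : d ≠ 0) (hdx : d * x ∈ serInt A) {D : ℕ} {a : ℕ → LaurentSeries L}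
    (ha : ∀ i, a i ∈ serInt A) (hrel : x ^ D + ∑ i ∈ Finset.range D, a i * x ^ i = 0) :
    x ∈ serInt A := by
  exact mem_serInt_of_almostIntegral hA hq (c := d ^ D) (pow_ne_zero _ hd0)
    (Arith.pow_mul_mem_of_monic_rel hd hdx (fun i _ => ha i) hrel)

/-- A fraction of bounded series satisfying a monic relation over `serBdd A` is bounded. -/
theorem mem_serBdd_of_monic_rel (hA : A.LiesOverPrime q) (hq : q.Prime) {x d : LaurentSeries L}
    (hd : d ∈ serBdd A) (hd0 : d ≠ 0) (hdx : d * x ∈ serBdd A) {D : ℕ} {a : ℕ → LaurentSeries L}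
    (ha : ∀ i < D, a i ∈ serBdd A) (hrel : x ^ D + ∑ i ∈ Finset.range D, a i * x ^ i = 0) :
    x ∈ serBdd A := by
  obtain ⟨c₁, hc₁, hc₁0, hcd⟩ := hd
  obtain ⟨c₂, hc₂, hc₂0, hcdx⟩ := hdx
  have hb : ∀ i : Fin D, ∃ c ∈ A, c ≠ 0 ∧ c • a i ∈ serInt A := fun i => ha i i.2
  choose cs hcs hcs0 hcsa using hb
  set γ : L := c₂ * ∏ i, cs i with hγ
  have hγA : γ ∈ A := mul_mem hc₂ (prod_mem fun i _ => hcs i)
  have hγ0 : γ ≠ 0 := mul_ne_zero hc₂0 (Finset.prod_ne_zero_iff.mpr fun i _ => hcs0 i)
  refine ⟨γ, hγA, hγ0, ?_⟩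
  refine mem_serInt_of_monic_rel hA hq (d := c₁ • d) hcd (by rw [Algebra.smul_def]; exact mul_ne_zero ((map_ne_zero _).mpr hc₁0) hd0) ?_ (D := D)
    (a := fun i => if i < D then γ ^ (D - i) • a i else 0) (fun i => ?_) ?_
  · rw [ser_smul_mul_smul]
    rw [show c₁ * γ = (c₁ * ∏ i, cs i) * c₂ by rw [hγ]; ring, ← ser_smul_smul]
    exact smul_mem_serInt (mul_mem hc₁ (prod_mem fun i _ => hcs i)) hcdx
  · split_ifs with hi
    · obtain ⟨r, hr⟩ := Finset.dvd_prod_of_mem cs (Finset.mem_univ (⟨i, hi⟩ : Fin D))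
      obtain ⟨t, ht⟩ : ∃ t ∈ A, γ ^ (D - i) = t * cs ⟨i, hi⟩ := by
        obtain ⟨s, hs⟩ := Nat.exists_eq_add_of_lt hi
        refine ⟨γ ^ s * c₂ * ∏ l ∈ Finset.univ.erase ⟨i, hi⟩, cs l, mul_mem (mul_mem
          (pow_mem hγA _) hc₂) (prod_mem fun l _ => hcs l), ?_⟩
        rw [show D - i = s + 1 by omega, pow_succ]
        conv_lhs => arg 2; rw [hγ, ← Finset.prod_erase_mul _ _ (Finset.mem_univ ⟨i, hi⟩)]
        ring
      rw [ht.2, ← ser_smul_smul]
      exact smul_mem_serInt ht.1 (hcsa ⟨i, hi⟩)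
    · exact zero_mem _
  · have h := congrArg (fun y => γ ^ D • y) hrel
    simp only [ser_smul_zero, ser_smul_add] at h
    rw [← h, ser_smul_pow, Algebra.smul_def (γ ^ D) (∑ i ∈ Finset.range D, a i * x ^ i),
      Finset.mul_sum]
    congr 1
    refine Finset.sum_congr rfl fun i hi => ?_
    have hi' := Finset.mem_range.mp hi
    rw [if_pos hi', ser_smul_pow, ser_smul_mul_smul, ← pow_add, Nat.sub_add_cancel hi'.le,
      Algebra.smul_def]

end FinCoeff

end Fermat.Agent.RedTorsion

end
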