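import Fermat.Agent.RedTorsion.LinePlaces
import Fermat.Agent.Igusa.SeriesOrder
import Fermat.Prelude.Def_ModularCurve_X0
import Fermat.Prelude.Def_ModularCurve_LaurentCoeff
import Mathlib.GroupTheory.GroupAction.Quotient
import Mathlib.LinearAlgebra.Lagrange

/-!
# Poles of `x` and orbits of the embeddings into Laurent series

If `F/K(x)` has as many embeddings into `K((t))` as its degree, all sending `x` to a series in
`t^N` with a simple pole in `t^N`, and a twist `ρ` of `K((t))` with fixed field `K((t^N))`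
permutes them, then the poles of `x` correspond to the orbits of this permutation.
-/

set_option autoImplicit false

noncomputable section

open scoped Classical
open AlgebraicCurve Polynomial IntermediateField

namespace Fermat.Agent.RedTorsion

open Fermat.Agent.FF ModularCurve

set_option linter.unusedSectionVars false

variable {K : Type*} [Field K]

section Order

/-- Laurent series without polar part. -/
def orderNonneg (K : Type*) [Field K] : ValuationSubring (LaurentSeries K) where
  carrier := {f | ∀ k : ℤ, k < 0 → f.coeff k = 0}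
  mul_mem' := by
    intro f g hf hg k hk
    rw [HahnSeries.coeff_mul]
    refine Finset.sum_eq_zero fun ij hij => ?_
    have hsum := (Finset.mem_antidiagonal.mp hij).2.2
    rcases lt_or_ge ij.1 0 with h | h
    · rw [hf _ h, zero_mul]
    · rw [hg _ (by omega), mul_zero]
  one_mem' := fun k hk => by simp [HahnSeries.coeff_one, hk.ne]
  add_mem' := fun hf hg k hk => by simp [hf k hk, hg k hk]
  zero_mem' := fun k _ => by simp
  neg_mem' := fun hf k hk => by simp [hf k hk]
  mem_or_inv_mem' := by
    intro f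
    rcases eq_or_ne f 0 with rfl | hf
    · exact Or.inl fun k _ => by simp
    rcases le_or_gt 0 f.order with h | h
    · exact Or.inl fun k hk => HahnSeries.coeff_eq_zero_of_lt_order (by omega)
    · refine Or.inr fun k hk => HahnSeries.coeff_eq_zero_of_lt_order ?_
      have h1 := HahnSeries.order_mul hf (inv_ne_zero hf)
      rw [mul_inv_cancel₀ hf, HahnSeries.order_one] at h1
      omega

theorem mem_orderNonneg_iff {f : LaurentSeries K} (hf : f ≠ 0) :
    f ∈ orderNonneg K ↔ 0 ≤ f.order := by
  constructor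
  · intro h
    by_contra hlt
    exact HahnSeries.coeff_order_eq_zero.not.mpr hf (h f.order (by omega))
  · exact fun h k hk => HahnSeries.coeff_eq_zero_of_lt_order (by omega)

theorem order_inv' {f : LaurentSeries K} (hf : f ≠ 0) : f⁻¹.order = -f.order := by
  have h := HahnSeries.order_mul hf (inv_ne_zero hf)
  rw [mul_inv_cancel₀ hf, HahnSeries.order_one] at h
  omega

theorem order_zpow' {f : LaurentSeries K} (hf : f ≠ 0) (n : ℤ) :
    (f ^ n).order = n * f.order := by
  obtain ⟨n, rfl | rfl⟩ := n.eq_nat_or_neg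
  · rw [zpow_natCast, HahnSeries.order_pow, nsmul_eq_mul]
  · rw [zpow_neg, zpow_natCast, order_inv' (pow_ne_zero _ hf), HahnSeries.order_pow, nsmul_eq_mul]; ring

theorem algebraMap_mem_orderNonneg (a : K) :
    algebraMap K (LaurentSeries K) a ∈ orderNonneg K := fun k hk => by
  rw [algebraMap_laurentSeries_eq_single, HahnSeries.coeff_single_of_ne hk.ne]

end Order

variable {F : Type*} [Field F] [Algebra K F] {x : F} {ι : Type*} [Fintype ι]

/-- The data of a family of embeddings into `K((t))`. -/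
structure CuspFamily (x : F) (N : ℕ) (ι : Type*) where
  /-- the embeddings -/
  σ : ι → (F →ₐ[K] LaurentSeries K)
  /-- the expansion of `x` -/
  xq : LaurentSeries K
  σ_injective : Function.Injective σ
  xq_order : xq.order = -1
  σ_x : ∀ i, σ i x = if h : N = 0 then 0 else (haveI := NeZero.mk h; qExpand K N xq)
  /-- the twist -/
  ρ : LaurentSeries K →+* LaurentSeries K
  ρ_coeff : ∀ f k, (ρ f).coeff k = 0 ↔ f.coeff k = 0
  ρ_fixed : ∀ f, ρ f = f → ∀ k : ℤ, ¬ (N : ℤ) ∣ k → f.coeff k = 0
  /-- the permutation -/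
  perm : Equiv.Perm ι
  ρ_σ : ∀ i y, ρ (σ i y) = σ (perm i) y

namespace CuspFamily

variable {N : ℕ} [NeZero N] (d : CuspFamily (K := K) x N ι)

theorem sigma_x (i : ι) : d.σ i x = qExpand K N d.xq := by
  rw [d.σ_x i, dif_neg (NeZero.ne N)]

theorem xq_ne_zero : d.xq ≠ 0 := fun h => by simpa [h] using d.xq_order

theorem ρ_mem_iff (f : LaurentSeries K) : d.ρ f ∈ orderNonneg K ↔ f ∈ orderNonneg K :=
  ⟨fun h k hk => (d.ρ_coeff f k).mp (h k hk), fun h k hk => (d.ρ_coeff f k).mpr (h k hk)⟩

variable [IsFunctionField K F]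

theorem transcendental_x (d : CuspFamily (K := K) x N ι) (i : ι) : Transcendental K x := fun h => by
  obtain ⟨p, hp, hpx⟩ := h
  have h1 : aeval (qExpand K N d.xq) p = 0 := by
    rw [← d.sigma_x i, aeval_algHom_apply, hpx, map_zero]
  have hx0 : qExpand K N d.xq ≠ 0 := fun h => d.xq_ne_zero (qExpand_injective N (by rw [h, map_zero]))
  -- compare the lowest coefficient
  set f := qExpand K N d.xq
  have ho : f.order < 0 := by
    rw [Igusa.order_qExpand d.xq_ne_zero, d.xq_order]
    have : (0 : ℤ) < N := by exact_mod_cast Nat.pos_of_ne_zero (NeZero.ne N)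
    omega
  have hc : (aeval f p).coeff (p.natDegree * f.order) = p.leadingCoeff * (f ^ p.natDegree).coeff (p.natDegree * f.order) := by
    rw [aeval_eq_sum_range, HahnSeries.coeff_sum, Finset.sum_range_succ, Finset.sum_eq_zero]
    · rw [zero_add, Algebra.smul_def, algebraMap_laurentSeries_eq_single, ← HahnSeries.C_apply,
        HahnSeries.C_mul_eq_smul, HahnSeries.coeff_smul, smul_eq_mul]
      rfl
    · intro i hi
      rw [Algebra.smul_def, algebraMap_laurentSeries_eq_single, ← HahnSeries.C_apply,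
        HahnSeries.C_mul_eq_smul, HahnSeries.coeff_smul, HahnSeries.coeff_eq_zero_of_lt_order,
        smul_zero]
      rw [HahnSeries.order_pow, nsmul_eq_mul]
      have : (i : ℤ) < p.natDegree := by exact_mod_cast Finset.mem_range.mp hi
      nlinarith
  rw [h1, HahnSeries.coeff_zero, eq_comm, mul_eq_zero, leadingCoeff_eq_zero] at hc
  refine hc.elim hp ?_
  rw [← nsmul_eq_mul, ← HahnSeries.order_pow]
  exact HahnSeries.coeff_order_eq_zero.not.mpr (pow_ne_zero _ hx0)

theorem sigma_x_not_mem (i : ι) : d.σ i x ∉ orderNonneg K := by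
  have hx0 : d.σ i x ≠ 0 := by
    rw [d.sigma_x]
    exact fun h => d.xq_ne_zero (qExpand_injective N (by rw [h, map_zero]))
  rw [mem_orderNonneg_iff hx0, d.sigma_x, Igusa.order_qExpand d.xq_ne_zero, d.xq_order]
  have : (0 : ℤ) < N := by exact_mod_cast Nat.pos_of_ne_zero (NeZero.ne N)
  omega

/-- The pole of `x` attached to an embedding. -/
def pole (i : ι) : Place K F :=
  placeOfValuationSubring ((orderNonneg K).comap (d.σ i).toRingHom)
    (fun a => by
      rw [ValuationSubring.mem_comap, AlgHom.toRingHom_eq_coe, RingHom.coe_coe, AlgHom.commutes]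
      exact algebraMap_mem_orderNonneg a)
    (fun h => d.sigma_x_not_mem i
      (ValuationSubring.mem_comap.mp (h ▸ ValuationSubring.mem_top x)))

theorem mem_pole_iff (i : ι) (y : F) :
    y ∈ (d.pole i).toValuationSubring ↔ d.σ i y ∈ orderNonneg K := Iff.rfl

theorem ord_pole_x (i : ι) : (d.pole i).ord x < 0 := by
  by_contra h
  exact d.sigma_x_not_mem i ((d.mem_pole_iff i x).mp ((mem_iff _).mpr (Or.inr (by omega))))

theorem pole_perm (i : ι) : d.pole (d.perm i) = d.pole i := by
  refine Place.ext (SetLike.ext fun y => ?_)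
  rw [mem_pole_iff, mem_pole_iff, ← d.ρ_σ, ρ_mem_iff]

theorem pole_zpow (i : ι) (k : ℤ) : d.pole ((d.perm ^ k) i) = d.pole i := by
  induction k using Int.induction_on with
  | zero => simp
  | succ k ih => rw [add_comm, zpow_add, zpow_one, Equiv.Perm.mul_apply, pole_perm, ih]
  | pred k ih =>
    rw [sub_eq_neg_add, zpow_add, zpow_neg_one, Equiv.Perm.mul_apply]
    rw [← d.pole_perm, Equiv.Perm.inv_def, Equiv.apply_symm_apply, ih]

variable [IsAlgClosed K] [FiniteDimensional K⟮x⟯ F] [Algebra.IsSeparable K⟮x⟯ F]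
  (hcard : Fintype.card ι = Module.finrank K⟮x⟯ F)

include hcard

theorem sigma_eq_on_adjoin (i j : ι) (g : K⟮x⟯) : d.σ i (g : F) = d.σ j (g : F) := by
  have hle : K⟮x⟯ ≤ IntermediateField.fixedField (F := K) (E := F) ⊥ := by simp
  obtain ⟨r, s, hrs⟩ := (mem_adjoin_simple_iff (F := K) (g : F)).mp g.2
  rw [hrs, map_div₀, map_div₀, ← aeval_algHom_apply, ← aeval_algHom_apply, ← aeval_algHom_apply,
    ← aeval_algHom_apply, d.sigma_x, d.sigma_x]

/-- The minimal polynomial of an element splits with roots the conjugates. -/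
theorem minpoly_map_eq (i₀ : ι) (φ : F) :
    (minpoly K⟮x⟯ φ).map ((d.σ i₀).toRingHom.comp (algebraMap K⟮x⟯ F)) =
      ∏ r ∈ Finset.univ.image (fun i => d.σ i φ), (X - C r) := by
  let Ω := AlgebraicClosure (LaurentSeries K)
  let ι₀ : LaurentSeries K →+* Ω := algebraMap _ Ω
  let : Algebra K⟮x⟯ Ω := (ι₀.comp ((d.σ i₀).toRingHom.comp (algebraMap K⟮x⟯ F))).toAlgebra
  let ψ : ι → (F →ₐ[K⟮x⟯] Ω) := fun i =>
    { ι₀.comp (d.σ i).toRingHom with
      commutes' := fun g => congrArg ι₀ (d.sigma_eq_on_adjoin hcard i i₀ g) }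
  have hψ : Function.Injective ψ := fun i j hij => d.σ_injective (AlgHom.ext fun y =>
    ι₀.injective (AlgHom.congr_fun hij y))
  have hbij : Function.Bijective ψ := (Fintype.bijective_iff_injective_and_card ψ).mpr
    ⟨hψ, by rw [hcard, AlgHom.card]⟩
  have hint : IsIntegral K⟮x⟯ φ := Algebra.IsIntegral.isIntegral φ
  set μ := minpoly K⟮x⟯ φ with hμ
  set S := Finset.univ.image (fun i => d.σ i φ) with hS
  set μt := μ.map ((d.σ i₀).toRingHom.comp (algebraMap K⟮x⟯ F)) with hμt
  have hroots : μ.rootSet Ω = ι₀ '' (S : Set (LaurentSeries K)) := by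
    rw [hμ, ← Algebra.IsAlgebraic.range_eval_eq_rootSet_minpoly Ω φ]
    ext r
    simp only [Set.mem_range, hS, Finset.coe_image, Finset.coe_univ, Set.image_univ, Set.mem_image,
      exists_exists_eq_and]
    constructor
    · rintro ⟨f, rfl⟩
      obtain ⟨i, rfl⟩ := hbij.2 f
      exact ⟨i, rfl⟩
    · rintro ⟨i, rfl⟩
      exact ⟨ψ i, rfl⟩
  have hcardS : S.card = μ.natDegree := by
    have h1 := card_rootSet_eq_natDegree (K := Ω) (p := μ) (Algebra.IsSeparable.isSeparable _ φ)
      (IsAlgClosed.splits _)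
    rw [← Nat.card_eq_fintype_card, hroots, Nat.card_coe_set_eq,
      Set.ncard_image_of_injective _ ι₀.injective, Set.ncard_coe_finset] at h1
    exact h1
  have hmon : μt.Monic := (minpoly.monic hint).map _
  have hdeg : μt.natDegree = S.card := by rw [hμt, Polynomial.natDegree_map, hcardS]
  refine Polynomial.eq_of_degree_sub_lt_of_eval_finset_eq S ?_ fun r hr => ?_
  · rw [← hdeg, ← Polynomial.degree_eq_natDegree hmon.ne_zero]
    refine Polynomial.degree_sub_lt_left ?_ hmon.ne_zero ?_
    · rw [degree_eq_natDegree hmon.ne_zero, degree_prod, hdeg]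
      simp
    · rw [hmon.leadingCoeff, (monic_prod_of_monic _ _ fun r _ => monic_X_sub_C r).leadingCoeff]
  · have h0 : ι₀ r ∈ μ.rootSet Ω := hroots ▸ ⟨r, hr, rfl⟩
    rw [mem_rootSet] at h0
    have h2 : (aeval (ι₀ r)) μ = ι₀ (μt.eval r) := by
      rw [aeval_def, hμt, eval_map, hom_eval₂]; rfl
    rw [h2, map_eq_zero_iff _ ι₀.injective] at h0
    rw [h0.2, eval_prod, Finset.prod_eq_zero hr (by simp)]

/-- Every pole of `x` comes from an embedding. -/
theorem exists_pole_eq (P : Place K F) (hP : P.ord x < 0) : ∃ i, d.pole i = P := by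
  by_contra! hne
  have : Nonempty ι := Fintype.card_pos_iff.mp (hcard ▸ Module.finrank_pos)
  obtain ⟨i₀⟩ := this
  have hx := d.transcendental_x i₀
  have hP' : P ∉ Finset.univ.image d.pole := by
    simp only [Finset.mem_image, Finset.mem_univ, true_and, not_exists]
    exact hne
  obtain ⟨φ, hφ⟩ := exists_approx_ord (insert P (Finset.univ.image d.pole))
    (fun v => if v = P then (-1 : ℤ) else 0)
  obtain ⟨hφ0, hφP⟩ := hφ P (Finset.mem_insert_self _ _)
  rw [if_pos rfl] at hφP
  have hroot : ∀ r ∈ Finset.univ.image (fun i => d.σ i φ), r ∈ orderNonneg K := by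
    intro r hr
    obtain ⟨i, -, rfl⟩ := Finset.mem_image.mp hr
    rw [← mem_pole_iff]
    have h1 := (hφ (d.pole i) (Finset.mem_insert_of_mem
      (Finset.mem_image.mpr ⟨i, Finset.mem_univ _, rfl⟩))).2
    rw [if_neg (hne i)] at h1
    exact (mem_iff _).mpr (Or.inr h1.ge)
  have hint : IsIntegral K⟮x⟯ φ := Algebra.IsIntegral.isIntegral φ
  have hbelow : below x P = below x (d.pole i₀) := by
    refine place_eq_of_pole hx ?_ ?_
    · by_contra h
      exact absurd ((ord_below_gen_nonneg_iff (x := x) P).mp (by omega)) (by omega)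
    · by_contra h
      exact absurd ((ord_below_gen_nonneg_iff (x := x) (d.pole i₀)).mp (by omega))
        (by have := d.ord_pole_x i₀; omega)
  have hcoeff : ∀ k, (((minpoly K⟮x⟯ φ).coeff k : K⟮x⟯) : F) ∈ ordGe P 0 := by
    intro k
    have h1 : d.σ i₀ (((minpoly K⟮x⟯ φ).coeff k : K⟮x⟯) : F) ∈ orderNonneg K := by
      have h2 : (∏ r ∈ Finset.univ.image (fun i => d.σ i φ), (X - C r)) ∈
          Polynomial.lifts (orderNonneg K).toSubring.subtype :=
        prod_mem fun r hr => by
          rw [sub_eq_add_neg, ← map_neg C]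
          exact add_mem (X_mem_lifts _)
            (C_mem_lifts _ (-⟨r, hroot r hr⟩ : (orderNonneg K).toSubring))
      rw [← d.minpoly_map_eq hcard i₀ φ, lifts_iff_coeff_lifts] at h2
      obtain ⟨a, ha⟩ := h2 k
      rw [coeff_map] at ha
      exact (show (a : LaurentSeries K) = d.σ i₀ _ from ha) ▸ a.2
    rw [mem_ordGe_zero]
    rw [← d.mem_pole_iff] at h1
    show (minpoly K⟮x⟯ φ).coeff k ∈ (below x P).toValuationSubring
    rw [hbelow]
    exact h1
  have h3 : φ ∈ ordGe P 0 := by
    refine mem_ordGe_zero_of_monic_rel P (d := (minpoly K⟮x⟯ φ).natDegree)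
      (a := fun i => (((minpoly K⟮x⟯ φ).coeff i : K⟮x⟯) : F)) hcoeff ?_
    have h4 := minpoly.aeval K⟮x⟯ φ
    rw [aeval_eq_sum_range, Finset.sum_range_succ, (minpoly.monic hint).coeff_natDegree,
      one_smul] at h4
    rw [add_comm]
    exact h4
  have := le_ord_of_mem_ordGe P hφ0 h3
  omega

/-- Approximation of series in `t^N` by rational functions of `x`. -/
theorem exists_approx_series (i₀ : ι) (f : LaurentSeries K) (B : ℤ) :
    ∃ g : K⟮x⟯, ∀ k < (N : ℤ) * B, (d.σ i₀ (g : F) - qExpand K N f).coeff k = 0 := by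
  induction hn : (B - f.order).toNat using Nat.strong_induction_on generalizing f with
  | _ n ih =>
  have hN : (0 : ℤ) < N := by exact_mod_cast Nat.pos_of_ne_zero (NeZero.ne N)
  rcases eq_or_ne f 0 with rfl | hf
  · exact ⟨0, fun k _ => by simp⟩
  rcases le_or_gt B f.order with hB | hB
  · refine ⟨0, fun k hk => ?_⟩
    have : (qExpand K N f).coeff k = 0 :=
      HahnSeries.coeff_eq_zero_of_lt_order (by rw [Igusa.order_qExpand hf]; nlinarith)
    simp [this]
  · set m := f.order with hm
    set u := d.xq ^ (-m) with hu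
    have hu0 : u ≠ 0 := zpow_ne_zero _ d.xq_ne_zero
    have huo : u.order = m := by rw [hu, order_zpow' d.xq_ne_zero, d.xq_order]; ring
    set a := f.coeff m / u.coeff m with ha
    set f' := f - HahnSeries.C a * u with hf'
    have hcoe : ∀ k, k ≤ m → f'.coeff k = 0 := by
      intro k hk
      rw [hf', HahnSeries.coeff_sub, HahnSeries.C_mul_eq_smul, HahnSeries.coeff_smul, smul_eq_mul]
      rcases hk.lt_or_eq with hk | hk
      · rw [HahnSeries.coeff_eq_zero_of_lt_order hk,
          HahnSeries.coeff_eq_zero_of_lt_order (by omega)]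
        ring
      · subst hk
        have : u.coeff m ≠ 0 := by
          rw [← huo]; exact HahnSeries.coeff_order_eq_zero.not.mpr hu0
        rw [ha]; field_simp; ring
    obtain ⟨g, hg⟩ : ∃ g : K⟮x⟯, ∀ k < (N : ℤ) * B,
        (d.σ i₀ (g : F) - qExpand K N f').coeff k = 0 := by
      rcases eq_or_ne f' 0 with h0 | h0
      · exact ⟨0, fun k _ => by simp [h0]⟩
      refine ih _ ?_ f' rfl
      have : m < f'.order := by
        by_contra hle
        exact HahnSeries.coeff_order_eq_zero.not.mpr h0 (hcoe _ (by omega))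
      omega
    refine ⟨g + algebraMap K K⟮x⟯ a * (gen x : K⟮x⟯) ^ (-m), fun k hk => ?_⟩
    have h1 : d.σ i₀ ((g + algebraMap K K⟮x⟯ a * (gen x : K⟮x⟯) ^ (-m) : K⟮x⟯) : F) -
        qExpand K N f = d.σ i₀ (g : F) - qExpand K N f' := by
      rw [hf']
      simp only [IntermediateField.coe_add, IntermediateField.coe_mul, map_add, map_mul, map_sub]
      rw [show (((gen x : K⟮x⟯) ^ (-m) : K⟮x⟯) : F) = x ^ (-m) from map_zpow₀ K⟮x⟯.val _ _,
        map_zpow₀, d.sigma_x, hu, map_zpow₀, qExpand_C,
        show ((algebraMap K K⟮x⟯ a : K⟮x⟯) : F) = algebraMap K F a from rfl, AlgHom.commutes,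
        algebraMap_laurentSeries_eq_single, HahnSeries.C_apply]
      ring
    rw [h1]
    exact hg k hk

/-- Embeddings giving the same pole lie in the same orbit. -/
theorem sameCycle_of_pole_eq {i j : ι} (h : d.pole i = d.pole j) :
    ∃ k : ℤ, (d.perm ^ k) i = j := by
  by_contra! hne
  have hfin : FiniteDimensional K⟮x⟯ F := inferInstance
  obtain ⟨θ, hθ⟩ := Field.exists_primitive_element K⟮x⟯ F
  have hθinj : ∀ a b, d.σ a θ = d.σ b θ → a = b := by
    intro a b hab
    refine d.σ_injective (AlgHom.ext fun y => ?_)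
    have hy : y ∈ (⊤ : IntermediateField K⟮x⟯ F) := trivial
    rw [← hθ] at hy
    obtain ⟨r, s, rfl⟩ := (mem_adjoin_simple_iff (F := K⟮x⟯) y).mp hy
    have key : ∀ p : (K⟮x⟯)[X], d.σ a (aeval θ p) = d.σ b (aeval θ p) := fun p => by
      induction p using Polynomial.induction_on' with
      | add p q hp hq => simp [hp, hq]
      | monomial n c =>
        rw [aeval_monomial, map_mul, map_mul, map_pow, map_pow, hab]
        congr 1
        exact d.sigma_eq_on_adjoin hcard a b c
    rw [map_div₀, map_div₀, key, key]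
  set O := Finset.univ.filter (fun e => ∃ k : ℤ, (d.perm ^ k) i = e) with hO
  have hperm : ∀ e, d.perm e ∈ O ↔ e ∈ O := fun e => by
    simp only [hO, Finset.mem_filter, Finset.mem_univ, true_and]
    constructor
    · rintro ⟨k, hk⟩
      exact ⟨k - 1, by rw [sub_eq_neg_add, zpow_add, zpow_neg_one, Equiv.Perm.mul_apply, hk,
        Equiv.Perm.inv_def, Equiv.symm_apply_apply]⟩
    · rintro ⟨k, hk⟩
      exact ⟨1 + k, by rw [zpow_add, zpow_one, Equiv.Perm.mul_apply, hk]⟩
  set P : (LaurentSeries K)[X] := ∏ e ∈ O, (X - C (d.σ e θ)) with hP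
  have hPfix : P.map d.ρ = P := by
    rw [hP, Polynomial.map_prod]
    simp only [Polynomial.map_sub, map_X, map_C, d.ρ_σ]
    refine Finset.prod_bij (fun e _ => d.perm e) (fun e he => (hperm e).mpr he)
      (fun a _ b _ h => d.perm.injective h) (fun e he => ⟨d.perm⁻¹ e, ?_, ?_⟩) (fun e _ => rfl)
    · rw [← hperm, Equiv.Perm.inv_def, Equiv.apply_symm_apply]; exact he
    · rw [Equiv.Perm.inv_def]; exact Equiv.apply_symm_apply _ _
  have hcoef : ∀ n, ∃ f, qExpand K N f = P.coeff n := by
    intro n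
    have hfix : d.ρ (P.coeff n) = P.coeff n := by rw [← coeff_map, hPfix]
    have hN : (0 : ℤ) < N := by exact_mod_cast Nat.pos_of_ne_zero (NeZero.ne N)
    refine ⟨⟨fun k => (P.coeff n).coeff (N * k),
      Set.IsPWO.mono ((P.coeff n).isPWO_support.image_of_monotone
        (f := fun k : ℤ => k / (N : ℤ)) fun a b hab => Int.ediv_le_ediv hN hab) ?_⟩, ?_⟩
    · intro k hk
      refine ⟨N * k, hk, ?_⟩
      simp [Int.mul_ediv_cancel_left _ hN.ne']
    · ext k
      by_cases hk : (N : ℤ) ∣ k
      · obtain ⟨m, rfl⟩ := hk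
        rw [qExpand_coeff_mul]
      · rw [qExpand_coeff_of_not_dvd N _ hk, d.ρ_fixed _ hfix k hk]
  choose f hf using hcoef
  have hj : j ∉ O := by
    simp only [hO, Finset.mem_filter, Finset.mem_univ, true_and, not_exists]
    exact hne
  have hPj : P.eval (d.σ j θ) ≠ 0 := by
    rw [hP, eval_prod, Finset.prod_ne_zero_iff]
    intro e he h0
    rw [eval_sub, eval_X, eval_C, sub_eq_zero] at h0
    exact hj (hθinj _ _ h0 ▸ he)
  have hPi : P.eval (d.σ i θ) = 0 := by
    rw [hP, eval_prod]
    refine Finset.prod_eq_zero (i := i) ?_ (by simp)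
    simp only [hO, Finset.mem_filter, Finset.mem_univ, true_and]
    exact ⟨0, by simp⟩
  set v := (P.eval (d.σ j θ)).order with hv
  set D := P.natDegree with hD
  have hN : (0 : ℤ) < N := by exact_mod_cast Nat.pos_of_ne_zero (NeZero.ne N)
  -- a common bound on the powers of the conjugates of `θ`
  set M : ℕ := ∑ e : ι, ∑ k ∈ Finset.range (D + 1), ((d.σ e θ) ^ k).order.natAbs with hM
  set B : ℤ := |v| + M + N + 1 with hB
  have hBv : v + M + N < N * B := by
    have := le_abs_self v
    have h1 : (1 : ℤ) ≤ N := hN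
    have h2 : (0 : ℤ) ≤ B := by
      have := abs_nonneg v
      rw [hB]; positivity
    nlinarith
  choose g hg using fun n => d.exists_approx_series hcard i (f n) B
  set y : F := ∑ n ∈ Finset.range (D + 1), (g n : F) * θ ^ n with hy
  have hclose : ∀ e : ι, ∀ k < (N : ℤ) * B - M, (d.σ e y - P.eval (d.σ e θ)).coeff k = 0 := by
    intro e k hk
    rw [hy, map_sum, eval_eq_sum_range, ← hD, ← Finset.sum_sub_distrib, HahnSeries.coeff_sum]
    refine Finset.sum_eq_zero fun n hn => ?_
    rw [map_mul, map_pow, d.sigma_eq_on_adjoin hcard e i, ← hf, ← sub_mul, HahnSeries.coeff_mul]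
    refine Finset.sum_eq_zero fun ab hab => ?_
    have hsum := (Finset.mem_antidiagonal.mp hab).2.2
    by_cases ha : ab.1 < (N : ℤ) * B
    · rw [hg n _ ha, zero_mul]
    · rw [HahnSeries.coeff_eq_zero_of_lt_order (x := d.σ e θ ^ n), mul_zero]
      have h1 : ((d.σ e θ ^ n).order.natAbs : ℕ) ≤ M :=
        le_trans (Finset.single_le_sum (f := fun k => ((d.σ e θ) ^ k).order.natAbs)
          (fun _ _ => Nat.zero_le _) hn)
          (Finset.single_le_sum (f := fun e => ∑ k ∈ Finset.range (D + 1),
            ((d.σ e θ) ^ k).order.natAbs) (fun _ _ => Nat.zero_le _) (Finset.mem_univ e))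
      omega
  -- the order of `σ j y` is `v`, that of `σ i y` is larger
  have hyj : (d.σ j y).coeff v ≠ 0 := by
    have h1 := hclose j v (by omega)
    rw [HahnSeries.coeff_sub, sub_eq_zero] at h1
    rw [h1]
    exact HahnSeries.coeff_order_eq_zero.not.mpr hPj
  set k₀ : ℤ := v / N + 1 with hk₀
  have hk₀1 : v < N * k₀ := by
    have := Int.lt_mul_ediv_self_add hN (x := v)
    rw [hk₀]; linarith
  have hk₀2 : N * k₀ ≤ v + N := by
    have := Int.mul_ediv_self_le (x := v) hN.ne'
    rw [hk₀]; linarith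
  set z : F := x ^ k₀ * y with hz
  have hxne : qExpand K N d.xq ≠ 0 := fun h0 =>
    d.xq_ne_zero (qExpand_injective N (by rw [h0, map_zero]))
  have hxo : ((qExpand K N d.xq) ^ k₀).order = -(N * k₀) := by
    rw [order_zpow' hxne, Igusa.order_qExpand d.xq_ne_zero, d.xq_order]; ring
  have hzi : z ∈ (d.pole i).toValuationSubring := by
    rw [mem_pole_iff, hz, map_mul, map_zpow₀, d.sigma_x]
    intro k hk
    rw [HahnSeries.coeff_mul]
    refine Finset.sum_eq_zero fun ab hab => ?_
    have hsum := (Finset.mem_antidiagonal.mp hab).2.2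
    by_cases ha : ab.1 < -((N : ℤ) * k₀)
    · rw [HahnSeries.coeff_eq_zero_of_lt_order (hxo.symm ▸ ha), zero_mul]
    · have h1 := hclose i ab.2 (by omega)
      rw [hPi, sub_zero] at h1
      rw [h1, mul_zero]
  have hyj0 : d.σ j y ≠ 0 := fun h0 => hyj (by rw [h0]; simp)
  have hzj : z ∉ (d.pole j).toValuationSubring := by
    rw [mem_pole_iff, hz, map_mul, map_zpow₀, d.sigma_x,
      mem_orderNonneg_iff (mul_ne_zero (zpow_ne_zero _ hxne) hyj0),
      HahnSeries.order_mul (zpow_ne_zero _ hxne) hyj0, hxo]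
    have := HahnSeries.order_le_of_coeff_ne_zero hyj
    omega
  exact hzj (h ▸ hzi)

/-- The poles of `x` correspond to the orbits. -/
theorem natCard_poles :
    Nat.card {P : Place K F // P.ord x < 0} =
      Nat.card (MulAction.orbitRel.Quotient (Subgroup.zpowers d.perm) ι) := by
  refine (Nat.card_congr (Equiv.ofBijective
    (Quotient.lift (fun i => (⟨d.pole i, d.ord_pole_x i⟩ : {P : Place K F // P.ord x < 0})) ?_)
    ⟨?_, ?_⟩)).symm
  · rintro a b ⟨⟨g, hg⟩, hgab⟩
    obtain ⟨k, rfl⟩ := Subgroup.mem_zpowers_iff.mp hg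
    refine Subtype.ext ?_
    show d.pole a = d.pole b
    rw [← hgab]
    exact d.pole_zpow b k
  · intro a b
    induction a using Quotient.inductionOn with
    | _ a =>
    induction b using Quotient.inductionOn with
    | _ b =>
    intro hab
    obtain ⟨k, hk⟩ := d.sameCycle_of_pole_eq hcard (congrArg Subtype.val hab)
    exact (Quotient.sound (show (MulAction.orbitRel (Subgroup.zpowers d.perm) ι).r b a from
      ⟨⟨d.perm ^ k, Subgroup.zpow_mem_zpowers _ k⟩, hk⟩)).symm
  · rintro ⟨P, hP⟩
    obtain ⟨i, hi⟩ := d.exists_pole_eq hcard P hP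
    exact ⟨Quotient.mk'' i, Subtype.ext hi⟩

end CuspFamily

end Fermat.Agent.RedTorsion

end
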