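import Fermat.Agent.RedTorsion.PolesOrbits
import Fermat.Agent.RedTorsion.JLine
import Fermat.Agent.Igusa.Degree
import Fermat.Agent.ModFun.CuspPlaces
import Fermat.Agent.Gamma0.Cusps
import Fermat.Agent.Genus.Counts

/-!
# Cusps of `X₀(N)` in any characteristic prime to `N`

The translates of `j(Nτ)` define embeddings of the function field into `k((t))`, `t = q^(1/N)`,
permuted by `t ↦ ζt`; hence the poles of `j` correspond to the cusps of `Γ₀(N)`.
-/

set_option autoImplicit false
set_option linter.unusedSectionVars false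

noncomputable section

open Polynomial AlgebraicCurve ModularCurve
open scoped MatrixGroups Classical IntermediateField

namespace Fermat.Agent.RedTorsion

open Fermat.Agent.FF Fermat.Agent.Igusa Fermat.Agent.ModFun

attribute [local instance] Fintype.ofFinite

variable {k : Type*} [Field k] {V : Subring ℂ} {π : V →+* k} {N : ℕ} [NeZero N]

theorem aeval_vCusp_minpoly (h : GoodRed N V π) (c : Coset N) :
    IsIntegral k⟮jt k N⟯ (vCusp h ((1 : SL(2, ℤ)) : Coset N)) ∧
      aeval (vCusp h c) (minpoly k⟮jt k N⟯ (vCusp h ((1 : SL(2, ℤ)) : Coset N))) = 0 := by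
  obtain ⟨P, hP, hPdeg, hPm⟩ := lifts_and_natDegree_eq_and_monic
    (lifts_evLine_le (prod_rCusp_mem_lifts (π := π) (N := N) ⟨_, h.mem_one⟩))
    (monic_prod_X_sub_C _ Finset.univ)
  have hroot : ∀ c, aeval (vCusp h c) P = 0 := fun c => by
    rw [aeval_def, ← eval_map, hP, eval_prod]
    exact Finset.prod_eq_zero (Finset.mem_univ c) (by simp [vCusp])
  have hint : IsIntegral k⟮jt k N⟯ (vCusp h ((1 : SL(2, ℤ)) : Coset N)) := ⟨P, hPm, hroot _⟩
  refine ⟨hint, ?_⟩
  have hdeg : P.natDegree ≤ (minpoly k⟮jt k N⟯ (vCusp h ((1 : SL(2, ℤ)) : Coset N))).natDegree := by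
    rw [← IntermediateField.adjoin.finrank hint, (orbitData_univ h).finrank_eq, hPdeg,
      natDegree_finsetProd_X_sub_C_eq_card]
  rw [← eq_of_monic_of_dvd_of_natDegree_le (minpoly.monic hint) hPm (minpoly.dvd _ _ (hroot _)) hdeg]
  exact hroot c

theorem qExpand_mem_top (h : GoodRed N V π) {y : LaurentSeries k}
    (hy : y ∈ modularFunctionFieldFullC k N) :
    ModularCurve.qExpand k N y ∈
      IntermediateField.adjoin k⟮jt k N⟯
        ({vCusp h ((1 : SL(2, ℤ)) : Coset N)} : Set (LaurentSeries k)) := by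
  induction hy using IntermediateField.adjoin_induction with
  | mem z hz =>
    obtain ⟨d, hd, hdN, rfl⟩ := hz
    rw [vCusp_one h]
    exact qExpand_jqd_mem h hdN
  | algebraMap c =>
    rw [show ModularCurve.qExpand k N (algebraMap k _ c) = algebraMap k _ c from
      (qExpandAlgHomC k N).commutes c, IsScalarTower.algebraMap_apply k k⟮jt k N⟯ (LaurentSeries k)]
    exact IntermediateField.algebraMap_mem _ _
  | add a b _ _ ha hb => rw [map_add]; exact add_mem ha hb
  | inv a _ ha => rw [map_inv₀]; exact inv_mem ha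
  | mul a b _ _ ha hb => rw [map_mul]; exact mul_mem ha hb

theorem full_eq_adjoin_pair (h : GoodRed N V π) :
    modularFunctionFieldFullC k N =
      IntermediateField.adjoin k ({jqModC k, jqNModC k N} : Set (LaurentSeries k)) := by
  rw [← restrictScalars_fullOverLine, fullOverLine_eq_adjoin_jqN h,
    IntermediateField.adjoin_simple_adjoin_simple]

variable {F : IntermediateField k (LaurentSeries k)} (hF : F = modularFunctionFieldFullC k N)

/-- Shortcut: the search through `LaurentSeries` is slow. -/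
local instance instAlgebraCuspField : Algebra k F := inferInstance

/-- `y ↦ y(q^N)` into `k(t^N)(v₁)`. -/
def toTop (h : GoodRed N V π) :
    F →+* IntermediateField.adjoin k⟮jt k N⟯
      ({vCusp h ((1 : SL(2, ℤ)) : Coset N)} : Set (LaurentSeries k)) :=
  ((ModularCurve.qExpand k N).comp F.val.toRingHom).codRestrict _
    fun y => qExpand_mem_top h (hF ▸ y.2)

/-- The conjugation `v₁ ↦ v_c`. -/
def conjHom (h : GoodRed N V π) (c : Coset N) :
    IntermediateField.adjoin k⟮jt k N⟯
      ({vCusp h ((1 : SL(2, ℤ)) : Coset N)} : Set (LaurentSeries k)) →ₐ[k⟮jt k N⟯] LaurentSeries k :=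
  (IntermediateField.adjoin.powerBasis (aeval_vCusp_minpoly h c).1).lift (vCusp h c) (by
    rw [IntermediateField.adjoin.powerBasis_gen, IntermediateField.minpoly_gen]
    exact (aeval_vCusp_minpoly h c).2)

theorem conjHom_gen (h : GoodRed N V π) (c : Coset N) :
    conjHom h c ⟨vCusp h ((1 : SL(2, ℤ)) : Coset N), IntermediateField.mem_adjoin_simple_self _ _⟩ =
      vCusp h c := by
  have e := PowerBasis.lift_gen (IntermediateField.adjoin.powerBasis (aeval_vCusp_minpoly h c).1)
    (vCusp h c) (by
      rw [IntermediateField.adjoin.powerBasis_gen, IntermediateField.minpoly_gen]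
      exact (aeval_vCusp_minpoly h c).2)
  exact e

/-- The embedding attached to a coset. -/
def cuspSigma (h : GoodRed N V π) (c : Coset N) : F →ₐ[k] LaurentSeries k where
  __ := (conjHom h c).toRingHom.comp (toTop hF h)
  commutes' a := by
    show conjHom h c (toTop hF h (algebraMap k F a)) = _
    rw [show toTop hF h (algebraMap k F a) = algebraMap k⟮jt k N⟯ _ (algebraMap k k⟮jt k N⟯ a) from
      Subtype.ext ((qExpandAlgHomC k N).commutes a), AlgHom.commutes]
    rfl

theorem cuspSigma_jF (h : GoodRed N V π) (c : Coset N) : cuspSigma hF h c (jF hF) = jt k N := by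
  show conjHom h c (toTop hF h (jF hF)) = _
  rw [show toTop hF h (jF hF) = algebraMap k⟮jt k N⟯ _
    ⟨jt k N, IntermediateField.mem_adjoin_simple_self k _⟩ from Subtype.ext rfl, AlgHom.commutes]
  rfl

/-- `j_N` in `F`. -/
def jNF' : F := ⟨jqNModC k N, hF ▸ jqModCd_mem_full k N dvd_rfl⟩

theorem cuspSigma_jN (h : GoodRed N V π) (c : Coset N) :
    cuspSigma hF h c (jNF' hF) = vCusp h c := by
  show conjHom h c (toTop hF h (jNF' hF)) = _
  rw [show toTop hF h (jNF' hF) = ⟨vCusp h ((1 : SL(2, ℤ)) : Coset N),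
    IntermediateField.mem_adjoin_simple_self _ _⟩ from Subtype.ext (vCusp_one h).symm, conjHom_gen]

theorem hom_ext_of_generators (h : GoodRed N V π) {Ω : Type*} [Field Ω] {f g : F →+* Ω}
    (hk : ∀ a : k, f (algebraMap k F a) = g (algebraMap k F a)) (hj : f (jF hF) = g (jF hF))
    (hN : f (jNF' hF) = g (jNF' hF)) : f = g := by
  let : Algebra k Ω := (f.comp (algebraMap k F)).toAlgebra
  exact congrArg AlgHom.toRingHom (IntermediateField.algHom_ext_of_eq_adjoin k
    (hF.trans (full_eq_adjoin_pair h))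
    (φ₁ := ({ f with commutes' := fun _ => rfl } : F →ₐ[k] Ω))
    (φ₂ := ({ g with commutes' := fun a => (hk a).symm } : F →ₐ[k] Ω))
    (by rintro _ (rfl | rfl); exacts [hj, hN]))

/-- The root of unity giving the twist. -/
def rootUnit (h : GoodRed N V π) : Vˣ :=
  (h.exists_unit (z := rootInv N) (by
    show Complex.exp _ ^ N = 1
    rw [← Complex.exp_nat_mul, mul_neg, Complex.exp_neg, inv_eq_one]
    rw [mul_div_cancel₀ _ (by exact_mod_cast NeZero.ne N)]
    exact Complex.exp_two_pi_mul_I)).choose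

theorem coe_rootUnit (h : GoodRed N V π) : ((rootUnit h : V) : ℂ) = rootInv N :=
  (h.exists_unit (z := rootInv N) (by
    show Complex.exp _ ^ N = 1
    rw [← Complex.exp_nat_mul, mul_neg, Complex.exp_neg, inv_eq_one]
    rw [mul_div_cancel₀ _ (by exact_mod_cast NeZero.ne N)]
    exact Complex.exp_two_pi_mul_I)).choose_spec

theorem rootUnit_pow (h : GoodRed N V π) : rootUnit h ^ N = 1 := by
  refine Units.ext (Subtype.ext ?_)
  rw [Units.val_pow_eq_pow_val, SubmonoidClass.coe_pow, coe_rootUnit]
  show Complex.exp _ ^ N = 1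
  rw [← Complex.exp_nat_mul, mul_neg, Complex.exp_neg, inv_eq_one,
    mul_div_cancel₀ _ (by exact_mod_cast NeZero.ne N)]
  exact Complex.exp_two_pi_mul_I

/-- The twist of `k((t))`. -/
def cuspRho (h : GoodRed N V π) : LaurentSeries k →+* LaurentSeries k :=
  ModFun.twist (Units.map (π : V →* k) (rootUnit h))

theorem cuspRho_qExpand (h : GoodRed N V π) (f : LaurentSeries k) :
    cuspRho h (ModularCurve.qExpand k N f) = ModularCurve.qExpand k N f := by
  ext n
  rw [cuspRho, coeff_twist]
  by_cases hn : (N : ℤ) ∣ n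
  · obtain ⟨m, rfl⟩ := hn
    rw [← map_zpow, zpow_mul, zpow_natCast, rootUnit_pow, one_zpow, map_one, Units.val_one, one_mul]
  · rw [qExpand_coeff_of_not_dvd N f hn, mul_zero]

theorem dvd_of_zpow_rootUnit (h : GoodRed N V π) {n : ℤ}
    (hn : Units.map (π : V →* k) (rootUnit h ^ n) = 1) : (N : ℤ) ∣ n := by
  have h1 : ((rootUnit h ^ n : Vˣ) : V) = 1 := by
    refine h.eq_one_of_root ?_ (congrArg Units.val hn)
    rw [← SubmonoidClass.coe_pow, ← Units.val_pow_eq_pow_val, ← zpow_natCast, ← zpow_mul,
      mul_comm, zpow_mul, zpow_natCast, rootUnit_pow, one_zpow]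
    rfl
  refine rootInv_zpow_eq_one (Units.ext ?_)
  have h2 : Units.map (V.subtype : V →* ℂ) (rootUnit h) = rootInv N := Units.ext (coe_rootUnit h)
  rw [← h2, ← map_zpow]
  exact congrArg Subtype.val h1

theorem vCusp_smul_T (h : GoodRed N V π) (c : Coset N) :
    vCusp h (ModularGroup.T • c) = cuspRho h (vCusp h c) := by
  have h2 : Units.map (V.subtype : V →* ℂ) (rootUnit h) = rootInv N := Units.ext (coe_rootUnit h)
  refine (red_rCusp ⟨_, h.mem_one⟩ (ModularGroup.T • c)).unique (π := π) ?_
  have h3 := (red_rCusp (π := π) ⟨_, h.mem_one⟩ c).twist (rootUnit h)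
  have h4 := cuspEmb_T_smul c (toFC N (jd (dvd_refl N)))
  rw [cuspEmb_toFC, cuspEmb_toFC] at h4
  rw [h2, ← h4] at h3
  exact h3

theorem cuspRho_cuspSigma (h : GoodRed N V π) (c : Coset N) (y : F) :
    cuspRho h (cuspSigma hF h c y) = cuspSigma hF h (ModularGroup.T • c) y := by
  refine RingHom.congr_fun (hom_ext_of_generators hF h
    (f := (cuspRho h).comp (cuspSigma hF h c).toRingHom)
    (g := (cuspSigma hF h (ModularGroup.T • c)).toRingHom) (fun a => ?_) ?_ ?_) y
  · show cuspRho h (cuspSigma hF h c (algebraMap k F a)) = cuspSigma hF h _ (algebraMap k F a)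
    rw [AlgHom.commutes, AlgHom.commutes,
      show algebraMap k (LaurentSeries k) a = ModularCurve.qExpand k N (algebraMap k _ a) from
        ((qExpandAlgHomC k N).commutes a).symm, cuspRho_qExpand]
  · show cuspRho h (cuspSigma hF h c (jF hF)) = cuspSigma hF h _ (jF hF)
    rw [cuspSigma_jF, cuspSigma_jF, jt, cuspRho_qExpand]
  · show cuspRho h (cuspSigma hF h c (jNF' hF)) = cuspSigma hF h _ (jNF' hF)
    rw [cuspSigma_jN, cuspSigma_jN, vCusp_smul_T]

/-- The family of cusp embeddings. -/
def cuspFamily (h : GoodRed N V π) : CuspFamily (K := k) (jF hF) N (Coset N) where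
  σ := cuspSigma hF h
  xq := jqModC k
  σ_injective c c' hcc := vCusp_injective h (by rw [← cuspSigma_jN hF h, hcc, cuspSigma_jN])
  xq_order := Igusa.order_jqModC
  σ_x c := by rw [cuspSigma_jF, dif_neg (NeZero.ne N)]
  ρ := cuspRho h
  ρ_coeff f n := by
    rw [cuspRho, coeff_twist]
    exact mul_eq_zero_iff_left (Units.ne_zero _)
  ρ_fixed f hf n hn := by
    by_contra hne
    refine hn (dvd_of_zpow_rootUnit h ?_)
    rw [map_zpow]
    refine Units.ext ?_
    have h1 := congrArg (fun g => g.coeff n) hf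
    simp only [cuspRho, coeff_twist] at h1
    exact mul_right_cancel₀ hne (h1.trans (one_mul _).symm)
  perm := cosetPerm ModularGroup.T
  ρ_σ c y := cuspRho_cuspSigma hF h c y

theorem natCard_orbits_cosetPerm_T :
    Nat.card (MulAction.orbitRel.Quotient (Subgroup.zpowers (cosetPerm (Γ := CongruenceSubgroup.Gamma0 N) ModularGroup.T))
      (Coset N)) = cuspCount N := by
  rw [← Gamma0.natCard_cusps]
  refine Nat.card_congr (Quotient.congr (Equiv.refl _) fun a b => ?_)
  show a ∈ MulAction.orbit _ b ↔ (Equiv.refl _ a) ∈ MulAction.orbit _ (Equiv.refl _ b)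
  constructor
  · intro hab
    obtain ⟨i, hi⟩ := mem_orbit_cosetPerm hab
    exact ⟨⟨_, i, rfl⟩, hi⟩
  · rintro ⟨⟨t, i, rfl⟩, hi⟩
    refine ⟨⟨cosetPerm ModularGroup.T ^ i, Subgroup.zpow_mem_zpowers _ i⟩, ?_⟩
    show (cosetPerm ModularGroup.T ^ i) b = a
    rw [cosetPerm, ← MulAction.toPermHom_apply, ← map_zpow]
    exact hi

include hF in
/-- The poles of `j` are in bijection with the cusps. -/
theorem natCard_poles_jF [IsAlgClosed k] (h : GoodRed N V π) :
    Nat.card {P : Place k F // P.ord (jF hF) < 0} = cuspCount N := by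
  have := isFunctionField_full hF h.ne_zero
  have := finiteDimensional_jF hF h.ne_zero
  have := isSeparable_jF hF h.ne_zero
  rw [(cuspFamily hF h).natCard_poles (by rw [finrank_jF hF h.ne_zero, Nat.card_eq_fintype_card])]
  exact natCard_orbits_cosetPerm_T

section Residue

theorem exists_goodRed {A : ValuationSubring (AlgebraicClosure ℚ)}
    (hNA : (N : IsLocalRing.ResidueField A) ≠ 0) :
    ∃ (V : Subring ℂ) (π : V →+* IsLocalRing.ResidueField A), GoodRed N V π := by
  let ι := Genus.toC0
  let e := A.toSubring.equivMapOfInjective ι ι.injective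
  refine ⟨A.toSubring.map ι, (IsLocalRing.residue A).comp e.symm.toRingHom, ?_, fun z hz => ?_, hNA⟩
  · have hu : IsUnit (N : A) := (IsLocalRing.residue_ne_zero_iff_isUnit _).mp (by rwa [map_natCast])
    obtain ⟨u, hu⟩ := hu
    refine ⟨((↑u⁻¹ : A) : AlgebraicClosure ℚ), (↑u⁻¹ : A).2, ?_⟩
    refine (inv_eq_of_mul_eq_one_right ?_).symm
    rw [← map_natCast ι, ← map_mul, ← map_one ι]
    refine congrArg ι ?_
    have h1 := congrArg Subtype.val (Units.mul_inv u)
    rw [hu] at h1
    exact_mod_cast h1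
  · obtain ⟨ζ, hζ⟩ := HasEnoughRootsOfUnity.exists_primitiveRoot (AlgebraicClosure ℚ) N
    obtain ⟨i, -, rfl⟩ := (hζ.map_of_injective ι.injective).eq_pow_of_pow_eq_one hz
    refine ⟨ζ ^ i, pow_mem (show ζ ∈ A from ?_) i, map_pow ι ζ i⟩
    rw [← ValuationSubring.valuation_le_one_iff]
    refine (pow_le_one_iff (NeZero.ne N)).mp ?_
    rw [← map_pow, hζ.pow_eq_one, map_one]

/-- The poles of `j̄` at level `N` over the residue field are in bijection with the cusps. -/
theorem natCard_poles_residue {A : ValuationSubring (AlgebraicClosure ℚ)}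
    [IsAlgClosed (IsLocalRing.ResidueField A)] (hNA : (N : IsLocalRing.ResidueField A) ≠ 0) :
    Nat.card {P : Place (IsLocalRing.ResidueField A)
        (modularFunctionFieldFullC (IsLocalRing.ResidueField A) N) //
      P.ord (jF (K := IsLocalRing.ResidueField A) (N := N)
        (F := modularFunctionFieldFullC (IsLocalRing.ResidueField A) N) rfl) < 0} = cuspCount N := by
  obtain ⟨V, π, h⟩ := exists_goodRed hNA
  exact natCard_poles_jF rfl h

end Residue

end Fermat.Agent.RedTorsion

end
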