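import Fermat.Agent.RedTorsion.SeriesModel
import Fermat.Prelude.Def_ModularCurve_X0

/-!
# The `q`-expansion of `j` over a commutative ring

The series `jqModC R` is a unit.
-/

set_option autoImplicit false
set_option linter.unusedSectionVars false

noncomputable section

open Polynomial AlgebraicCurve IsLocalRing ModularCurve
open scoped Classical IntermediateField

namespace Fermat.Agent.RedTorsion

open Fermat.Agent.FF Fermat.Agent.EichlerShimura

variable {L : Type*} [Field L] {A : ValuationSubring L}

section InvJ

theorem isUnit_jqModC (R : Type*) [CommRing R] : IsUnit (jqModC R) := by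
  rw [jqModC]
  refine IsUnit.mul (IsUnit.of_mul_eq_one (HahnSeries.single (1 : ℤ) (1 : R)) ?_) (IsUnit.map _ ?_)
  · rw [HahnSeries.single_mul_single, mul_one]; rfl
  · rw [PowerSeries.isUnit_iff_constantCoeff]
    rw [← PowerSeries.coeff_zero_eq_constantCoeff, PowerSeries.coeff_map,
      PowerSeries.coeff_zero_eq_constantCoeff, constantCoeff_jNum, map_one]
    exact isUnit_one

end InvJ

variable [IsAlgClosed L] [PerfectField (ResidueField A)]
  {N : ℕ} [NeZero N] {F : IntermediateField L (LaurentSeries L)}
  (hF : F = modularFunctionFieldFullC L N) (hNA : (N : ResidueField A) ≠ 0)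

local notation "Fk" => modularFunctionFieldFullC (ResidueField A) N

end Fermat.Agent.RedTorsion

end
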