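import Fermat.Agent.RedTorsion.Dual

/-!
# Bounds on the genus from the trace dual

In characteristic zero the genus is at most what the Hurwitz formula gives from an upper bound on
the ramification; in any characteristic it is at least what the tame part of the different gives,
also along a tower.
-/

set_option autoImplicit false

noncomputable section

open scoped Classical
open AlgebraicCurve Polynomial IntermediateField

namespace Fermat.Agent.RedTorsion

open Fermat.Agent.FF

set_option linter.unusedSectionVars false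

variable {K F : Type*} [Field K] [Field F] [Algebra K F] {x : F}
variable [IsAlgClosed K] [IsFunctionField K F] [FiniteDimensional K⟮x⟯ F]

/-- Riemann-Roch for large multiples of the polar divisor plus a fixed divisor. -/
theorem exists_ell_eq (hx : Transcendental K x) (D : Divisor K F) :
    ∃ N₀ : ℕ, ∀ N ≥ N₀, ell K (D + N • poles K x) =
      Divisor.degree D + N * Module.finrank K⟮x⟯ F + 1 - genusFF K F := by
  obtain ⟨c, hc⟩ := exists_h1_eq_zero (K := K) (F := F)
  refine ⟨(c - Divisor.degree D).toNat, fun N hN => ?_⟩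
  have hn : (1 : ℤ) ≤ Module.finrank K⟮x⟯ F := by exact_mod_cast Module.finrank_pos
  have hdeg : Divisor.degree (D + N • poles K x) =
      Divisor.degree D + N * Module.finrank K⟮x⟯ F := by
    rw [map_add, map_nsmul, degree_poles hx, nsmul_eq_mul]
  have hN' : ((c - Divisor.degree D).toNat : ℤ) ≤ N := by exact_mod_cast hN
  have h := hc (D + N • poles K x) (by
    rw [hdeg]
    have := Int.self_le_toNat (c - Divisor.degree D)
    nlinarith)
  have h' := riemann_roch_isAlgClosed (D + N • poles K x)
  rw [h, sub_zero, hdeg] at h'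
  exact h'

/-- A reduced basis, with the sum of its weights. -/
theorem exists_reduced_sum (hx : Transcendental K x) :
    ∃ (b : Fin (Module.finrank K⟮x⟯ F) → F) (e : Fin (Module.finrank K⟮x⟯ F) → ℕ),
      IsReduced (K := K) x b e ∧
        (∑ i, (e i : ℤ)) = Module.finrank K⟮x⟯ F + genusFF K F - 1 := by
  obtain ⟨b, e, h⟩ := exists_reduced (K := K) hx
  refine ⟨b, e, h, ?_⟩
  obtain ⟨N₀, hN₀⟩ := exists_ell_eq hx (0 : Divisor K F)
  have h1 := hN₀ (N₀ + ∑ i, e i) (Nat.le_add_right _ _)
  rw [zero_add, h.ell_eq hx (fun i => le_trans (Finset.single_le_sum (fun _ _ => Nat.zero_le _)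
    (Finset.mem_univ i)) (Nat.le_add_left _ _)), map_zero, zero_add] at h1
  simp only [Finset.sum_sub_distrib, Finset.sum_const, Finset.card_univ, Fintype.card_fin,
    nsmul_eq_mul] at h1
  nlinarith

variable [Algebra.IsSeparable K⟮x⟯ F]

theorem finrank_dualSpace_eq (hx : Transcendental K x) (N : ℕ) :
    Module.Finite K (dualSpace (K := K) x N) ∧
      (Module.finrank K (dualSpace (K := K) x N) : ℤ) =
        N * Module.finrank K⟮x⟯ F + 2 * Module.finrank K⟮x⟯ F + genusFF K F - 1 := by
  obtain ⟨b, e, h, hs⟩ := exists_reduced_sum (K := K) hx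
  obtain ⟨hfin, hdim⟩ := finrank_dualSpace h (Fintype.card_fin _) hx N
  refine ⟨hfin, hdim.trans ?_⟩
  simp only [Finset.sum_add_distrib, hs, Finset.sum_const, Finset.card_univ, Fintype.card_fin,
    nsmul_eq_mul]
  ring

/-- If the trace dual lies in `L(R + N (x)_∞)`, then `2g - 2 + 2n ≤ deg R`. -/
theorem genus_le_of_dual_le (hx : Transcendental K x) (R : Divisor K F)
    (h : ∀ N : ℕ, dualSpace (K := K) x N ≤ riemannRochSpace (R + N • poles K x)) :
    2 * (genusFF K F : ℤ) - 2 + 2 * Module.finrank K⟮x⟯ F ≤ Divisor.degree R := by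
  obtain ⟨N, hN⟩ := exists_ell_eq hx R
  obtain ⟨hfin, hdim⟩ := finrank_dualSpace_eq hx N
  have h1 := hN N le_rfl
  have h2 : Module.finrank K (dualSpace (K := K) x N) ≤
      Module.finrank K (riemannRochSpace (R + N • poles K x)) := Submodule.finrank_mono (h N)
  unfold ell at h1
  omega

/-- If `L(R + N (x)_∞)` lies in the trace dual, then `deg R ≤ 2g - 2 + 2n`. -/
theorem le_genus_of_le_dual (hx : Transcendental K x) (R : Divisor K F)
    (h : ∀ N : ℕ, riemannRochSpace (R + N • poles K x) ≤ dualSpace (K := K) x N) :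
    Divisor.degree R ≤ 2 * (genusFF K F : ℤ) - 2 + 2 * Module.finrank K⟮x⟯ F := by
  obtain ⟨N, hN⟩ := exists_ell_eq hx R
  obtain ⟨hfin, hdim⟩ := finrank_dualSpace_eq hx N
  have h1 := hN N le_rfl
  have h2 : Module.finrank K (riemannRochSpace (R + N • poles K x)) ≤
      Module.finrank K (dualSpace (K := K) x N) := Submodule.finrank_mono (h N)
  unfold ell at h1
  omega

/-- An element of the dual has polynomial trace. -/
theorem exists_trace_eq_aeval (hx : Transcendental K x) {c : ℕ} {y : F}
    (hy : y ∈ dualSpace (K := K) x c) :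
    ∃ p : K[X], p.natDegree ≤ c ∧ Algebra.trace K⟮x⟯ F y = aevalGen x p := by
  obtain ⟨b, e, h⟩ := exists_reduced (K := K) hx
  obtain ⟨α, h1, hα⟩ := h.repr 0 1 (by
    simp [mem_riemannRochSpace', mem_ordGe_of_le])
  choose p hpd hp using (mem_dualSpace_iff h hx).mp hy
  refine ⟨∑ i, α i * p i, natDegree_sum_le_of_forall_le _ _ fun i _ => ?_, ?_⟩
  · rcases eq_or_ne (α i) 0 with hi | hi
    · simp [hi]
    · refine natDegree_mul_le.trans ?_
      have := hα i hi
      have := hpd i
      omega
  · have h2 := trace_comb (q := 1) (y := y) (β := (1 : F)) (by simpa using h1) hp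
    have hone : aevalGen x (1 : K[X]) = 1 := Subtype.ext (by simp)
    rwa [hone, one_mul, mul_one, aeval_gen_eq] at h2

/-- A divisor inside the trace dual, of degree at least `2g - 2 + 2n`. -/
theorem exists_dual_divisor (hx : Transcendental K x) :
    ∃ δ : Divisor K F, 0 ≤ δ ∧
      (∀ N : ℕ, riemannRochSpace (δ + N • poles K x) ≤ dualSpace (K := K) x N) ∧
      2 * (genusFF K F : ℤ) - 2 + 2 * Module.finrank K⟮x⟯ F ≤ Divisor.degree δ := by
  obtain ⟨b, e, h⟩ := exists_reduced (K := K) hx
  have hbij := traceCoords_bijective h (Fintype.card_fin _)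
  let T := LinearEquiv.ofBijective _ hbij
  let v : (Σ i, Fin (e i + 1)) → F := fun ik =>
    T.symm (Pi.single ik.1 (aevalGen x ((X : K[X]) ^ (ik.2 : ℕ))))
  have hv : ∀ ik, v ik ∈ dualSpace (K := K) x 0 := fun ik => by
    refine (mem_dualSpace_iff h hx).mpr fun i => ?_
    have h1 : Algebra.trace K⟮x⟯ F (v ik * b i) =
        Pi.single (M := fun _ => K⟮x⟯) ik.1 (aevalGen x ((X : K[X]) ^ (ik.2 : ℕ))) i := by
      rw [← traceCoords_apply]
      exact congrFun (T.apply_symm_apply _) i
    rcases eq_or_ne i ik.1 with rfl | hne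
    · exact ⟨X ^ (ik.2 : ℕ), by simp; omega, by rw [h1, Pi.single_eq_same]⟩
    · exact ⟨0, by simp, by rw [h1, Pi.single_eq_of_ne hne]; exact Subtype.ext (by simp)⟩
  set W : Finset F := insert 1 ((Finset.univ.image v).filter fun w => w ≠ 0) with hW
  have hWne : W.Nonempty := ⟨1, Finset.mem_insert_self _ _⟩
  have hWmem : ∀ w ∈ W, w ≠ 0 ∧ w ∈ dualSpace (K := K) x 0 := by
    intro w hw
    rcases Finset.mem_insert.mp hw with rfl | hw
    · exact ⟨one_ne_zero, one_mem_dualSpace hx⟩
    · obtain ⟨hw, hw0⟩ := Finset.mem_filter.mp hw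
      obtain ⟨ik, -, rfl⟩ := Finset.mem_image.mp hw
      exact ⟨hw0, hv ik⟩
  let δ : Divisor K F := Finsupp.onFinset
    (W.biUnion fun w => (finite_support (K := K) w).toFinset)
    (fun P => W.sup' hWne fun w => -P.ord w) (fun P hP => by
      rw [Finset.mem_biUnion]
      by_contra! hall
      refine hP (le_antisymm (Finset.sup'_le _ _ fun w hw => ?_)
        (le_trans (by simp) (Finset.le_sup' _ (Finset.mem_insert_self (1 : F) _))))
      have h0 := hall w hw
      rw [Set.Finite.mem_toFinset, Set.mem_ofPred_eq, not_not] at h0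
      rw [h0, neg_zero])
  have hδ : ∀ P, δ P = W.sup' hWne fun w => -P.ord w := fun P => rfl
  have hδ0 : 0 ≤ δ := Finsupp.le_def.mpr fun P => by
    rw [hδ]
    exact le_trans (by simp) (Finset.le_sup' _ (Finset.mem_insert_self (1 : F) _))
  have hδv : ∀ ik P, v ik ∈ ordGe P (-δ P) := fun ik P => by
    rcases eq_or_ne (v ik) 0 with h0 | h0
    · simp [h0]
    refine mem_ordGe_of_le P ?_
    rw [hδ, neg_le]
    exact Finset.le_sup' (fun w => -P.ord w) (Finset.mem_insert_of_mem
      (Finset.mem_filter.mpr ⟨Finset.mem_image.mpr ⟨ik, Finset.mem_univ _, rfl⟩, h0⟩))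
  refine ⟨δ, hδ0, fun N y hy Q => ?_, genus_le_of_dual_le hx δ fun N y hy => ?_⟩
  · -- inside the dual
    set t : K⟮x⟯ := if Q.ord (gen x : K⟮x⟯) < 0 then (gen x : K⟮x⟯) ^ N else 1 with ht
    have ht0 : (t : F) ≠ 0 := by
      have hx0 : x ≠ 0 := fun h => hx (h ▸ isAlgebraic_zero)
      simp only [ht]; split_ifs <;> simp [gen, hx0]
    have htQ : t ∈ ordGe Q (-sAt x N Q) := by
      simp only [ht]
      split_ifs with hQ
      · exact gen_pow_mem_ordGe hx le_rfl Q
      · exact mem_ordGe_of_le Q (by simp [sAt, hQ])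
    have hz : IsDualAt x Q 0 ((t : F)⁻¹ * y) := by
      refine IsDualAt.of_bound hx fun P hP => ?_
      obtain ⟨w, hw, hwmax⟩ := Finset.exists_mem_eq_sup' hWne fun w => -P.ord w
      refine ⟨w, (hWmem w hw).1, ?_, ?_⟩
      · have := (hWmem w hw).2 Q
        rwa [show sAt x 0 Q = 0 by rw [sAt]; split_ifs <;> simp] at this
      · have hP' := mem_riemannRochSpace'.mp hy P
        refine ordGe_anti P ?_ (mul_mem_ordGe P (mem_ordGe_of_le P (le_refl (P.ord (t : F)⁻¹))) hP')
        rw [Finsupp.add_apply, nsmul_poles_apply, hδ, hwmax, P.ord_inv]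
        by_cases hQ : Q.ord (gen x : K⟮x⟯) < 0
        · have hPx : P.ord x < 0 := by
            by_contra h'
            exact absurd ((ord_below_gen_nonneg_iff (x := x) P).mpr (by omega)) (by rw [hP]; omega)
          simp only [ht, if_pos hQ, SubmonoidClass.coe_pow, coe_gen, ord_pow, poles_apply]
          rw [max_eq_right (by omega)]
          linarith
        · have hPx : 0 ≤ P.ord x :=
            (ord_below_gen_nonneg_iff (x := x) P).mp (by rw [hP]; omega)
          simp only [ht, if_neg hQ, poles_apply, max_eq_left (neg_nonpos.mpr hPx)]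
          simp
    have := hz.coe_mul t htQ
    rwa [zero_add, ← mul_assoc, mul_inv_cancel₀ ht0, one_mul] at this
  · -- coordinates of a dual element
    choose p hpd hp using (mem_dualSpace_iff h hx).mp hy
    have hy' : T y = fun i => aevalGen x (p i) := funext fun i => hp i
    have hkey : ∀ i (k : ℕ), k ≤ N + e i →
        T.symm (Pi.single i (aevalGen x ((X : K[X]) ^ k))) ∈
          riemannRochSpace (δ + N • poles K x) := by
      intro i k hk
      have hk1 : k - e i ≤ N := by omega
      have hk2 : min k (e i) < e i + 1 := by omega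
      have heq : T.symm (Pi.single i (aevalGen x ((X : K[X]) ^ k))) =
          x ^ (k - e i) * v ⟨i, ⟨min k (e i), hk2⟩⟩ := by
        apply T.injective
        rw [T.apply_symm_apply, show x ^ (k - e i) * v ⟨i, ⟨min k (e i), hk2⟩⟩ =
          ((gen x : K⟮x⟯) ^ (k - e i)) • v ⟨i, ⟨min k (e i), hk2⟩⟩ by
            rw [IntermediateField.smul_def]; simp [gen], map_smul, T.apply_symm_apply, ← Pi.single_smul]
        refine congrArg _ (Subtype.ext ?_)
        simp only [smul_eq_mul, IntermediateField.coe_mul, SubmonoidClass.coe_pow, coe_gen,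
          coe_aevalGen, map_pow, aeval_X, ← pow_add]
        congr 1
        omega
      rw [heq]
      refine mem_riemannRochSpace'.mpr fun P => ?_
      refine ordGe_anti P ?_ (mul_mem_ordGe P (pow_mem_ordGe P (poles_mem_ordGe P x) (k - e i))
        (hδv ⟨i, ⟨min k (e i), hk2⟩⟩ P))
      rw [Finsupp.add_apply, nsmul_poles_apply]
      have h0 : (0 : ℤ) ≤ poles K x P := by simp
      have : ((k - e i : ℕ) : ℤ) ≤ N := by exact_mod_cast hk1
      nlinarith
    have hsum : y = ∑ i, ∑ k ∈ Finset.range (N + e i + 1),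
        (p i).coeff k • T.symm (Pi.single i (aevalGen x ((X : K[X]) ^ k))) := by
      apply T.injective
      rw [hy', map_sum]
      funext j
      rw [Finset.sum_apply, Finset.sum_eq_single j]
      · rw [map_sum, Finset.sum_apply]
        refine Subtype.ext ?_
        rw [coe_aevalGen, aeval_eq_sum_range' (n := N + e j + 1) (by have := hpd j; omega),
          AddSubmonoidClass.coe_finsetSum]
        refine Finset.sum_congr rfl fun k _ => ?_
        rw [← LinearEquiv.coe_coe T, LinearMap.map_smul_of_tower, LinearEquiv.coe_coe, T.apply_symm_apply, Pi.smul_apply, Pi.single_eq_same]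
        simp
      · intro i _ hij
        rw [map_sum, Finset.sum_apply]
        refine Finset.sum_eq_zero fun k _ => ?_
        rw [← LinearEquiv.coe_coe T, LinearMap.map_smul_of_tower, LinearEquiv.coe_coe, T.apply_symm_apply, Pi.smul_apply,
          Pi.single_eq_of_ne (Ne.symm hij), smul_zero]
      · simp
    rw [hsum]
    exact sum_mem fun i _ => sum_mem fun k hk => Submodule.smul_mem _ _
      (hkey i k (by rw [Finset.mem_range] at hk; omega))

section Tower

variable {F' : Type*} [Field F'] [Algebra K F'] [Algebra F F'] [IsScalarTower K F F']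
  [FiniteDimensional F F'] [Algebra.IsSeparable F F'] [IsFunctionField K F']
  [FiniteDimensional K⟮algebraMap F F' x⟯ F'] [Algebra.IsSeparable K⟮algebraMap F F' x⟯ F']

theorem trace_tower {z : F'} {p : K[X]}
    (h : Algebra.trace K⟮x⟯ F (Algebra.trace F F' z) = aevalGen x p) :
    Algebra.trace K⟮algebraMap F F' x⟯ F' z = aevalGen (algebraMap F F' x) p := by
  have heq : K⟮x⟯.map (IsScalarTower.toAlgHom K F F') = K⟮algebraMap F F' x⟯ := by
    rw [adjoin_map, Set.image_singleton]; rfl
  let e : K⟮x⟯ ≃+* K⟮algebraMap F F' x⟯ :=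
    ((K⟮x⟯.equivMap (IsScalarTower.toAlgHom K F F')).trans
      (IntermediateField.equivOfEq heq)).toRingEquiv
  have hcomm : (algebraMap K⟮algebraMap F F' x⟯ F').comp e.toRingHom
      = (RingEquiv.refl F').toRingHom.comp (algebraMap K⟮x⟯ F') := by
    ext a
    rfl
  have h1 := Algebra.trace_eq_of_equiv_equiv e (RingEquiv.refl F') hcomm z
  rw [← Algebra.trace_trace (S := F), h] at h1
  refine (e.symm.injective ?_)
  simp only [RingEquiv.refl_apply] at h1
  rw [← h1, RingEquiv.eq_symm_apply]
  refine Subtype.ext ?_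
  show algebraMap F F' (aeval x p) = aeval (algebraMap F F' x) p
  exact (aeval_algebraMap_apply F' x p).symm

/-- The tame lower bound along a tower. -/
theorem le_genus_of_tower (hx : Transcendental K x) {δ : Divisor K F}
    (hdual : ∀ N : ℕ, riemannRochSpace (δ + N • poles K x) ≤ dualSpace (K := K) x N)
    (R : Divisor K F')
    (hR : ∀ P : Place K F', R P ≤ (P.ramificationIndex F : ℤ) * (δ (P.restrict F) + 1) - 1) :
    Divisor.degree R ≤ 2 * (genusFF K F' : ℤ) - 2 +
      2 * Module.finrank K⟮algebraMap F F' x⟯ F' := by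
  have hx' := transcendental_algebraMap (F' := F') hx
  refine le_genus_of_le_dual hx' R fun N y hy => ?_
  obtain ⟨b, e, h⟩ := exists_reduced (K := K) hx'
  refine (mem_dualSpace_iff h hx').mpr fun i => ?_
  set c := N + e i with hc
  have hw : Algebra.trace F F' (y * b i) ∈ riemannRochSpace (δ + c • poles K x) := by
    refine mem_riemannRochSpace'.mpr fun Q => ?_
    refine trace_mem_ordGe Q _ (fun P hP => ?_) (exists_restrict_eq Q)
    refine ordGe_anti P ?_ (mul_mem_ordGe P (mem_riemannRochSpace'.mp hy P)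
      (mem_polesSpace.mp (h.mem i) P))
    have hpol : poles K (algebraMap F F' x) P = (P.ramificationIndex F : ℤ) * poles K x Q := by
      rw [poles_apply, poles_apply, P.ord_restrict x, hP,
        mul_max_of_nonneg _ _ (Int.natCast_nonneg _), mul_zero, mul_neg]
    have hR' := hR P
    rw [hP] at hR'
    simp only [Finsupp.add_apply, nsmul_poles_apply, hpol, hc]
    push_cast
    linarith
  obtain ⟨p, hp, hpe⟩ := exists_trace_eq_aeval hx (hdual c hw)
  exact ⟨p, hp, trace_tower hpe⟩

end Tower

end Fermat.Agent.RedTorsion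

end
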